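/-
T1G (H) TG-ASM (abstract assembly with nebentypus), file 1: **the twisted determinant trick**.

`ρ : GaloisRepAdic 𝒪` over a discrete valuation ring of characteristic zero, `p ∈ 𝔪`, `S` a finite set
containing `p` and the primes dividing `M`, `e : MulChar (ZMod M) 𝒪`.  If every Frobenius element at a
prime `l ∉ S` satisfies a relation `F² - t F + l e(l) = 0` and some element acts as a non-scalar, then
`det ρ` is the `p`-adic cyclotomic character times `e ∘ (cyclotomic character mod M)`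
(`TgzDetTwist`, `tgz_detTwist`), and the characteristic polynomial of such a Frobenius element is
`X² - t X + l e(l)` (`tgz_charpoly_of_quadratic`), also in the scalar case.
Port of `Lib/T1/Asm/DetTrick.lean` (whose generic lemmas are imported).
-/
import Fermat.Agent.Lib.T1.Asm.DetTrick
set_option autoImplicit false
set_option linter.unusedSectionVars false
set_option linter.unusedVariables false
set_option linter.style.haveILetI false

open IsLocalRing Polynomial Fermat.Agent.CFT Fermat.Agent.CFT.Pinf Fermat.Agent.T1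

namespace Fermat.Agent.T1G

noncomputable section

section DetTwist

variable {𝒪 : Type} [CommRing 𝒪] [IsDomain 𝒪] [IsDiscreteValuationRing 𝒪]
  (p : ℕ) [Fact p.Prime] (ρ : GaloisRepAdic 𝒪) (S : Finset ℕ) (M : ℕ) [NeZero M]
  (e : MulChar (ZMod M) 𝒪)

/-- the determinant of `ρ` is the `p`-adic cyclotomic character times the character `e` of
`(ℤ/M)ˣ` composed with the cyclotomic character modulo `M` -/
def TgzDetTwist : Prop :=
  (p : 𝒪) ∈ maximalIdeal 𝒪 ∧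
    ∀ (n : ℕ) (σ : GQ) (a : ℕ), (∀ μ : Qbar, μ ^ (M * p ^ n) = 1 → σ μ = μ ^ a) →
      LinearMap.det (ρ.ρ σ) - (a : 𝒪) * e (a : ZMod M) ∈ Ideal.span {((p ^ n : ℕ) : 𝒪)}

lemma tgz_span_le (n : ℕ) :
    Ideal.span {((M * p ^ n : ℕ) : 𝒪)} ≤ Ideal.span {((p ^ n : ℕ) : 𝒪)} := by
  rw [Ideal.span_singleton_le_span_singleton]
  exact ⟨(M : 𝒪), by push_cast; ring⟩

lemma tgz_e_eq_of_modEq {n a b : ℕ} (h : a ≡ b [MOD M * p ^ n]) :
    e (a : ZMod M) = e (b : ZMod M) := by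
  have h1 : a ≡ b [MOD M] := h.of_mul_right _
  rw [(ZMod.natCast_eq_natCast_iff a b M).2 h1]

/-- **twisted determinant trick, main case** -/
lemma tgz_det_of_not_scalarMod (b : Module.Basis (Fin 2) 𝒪 ρ.V) (hpS : p ∈ S)
    (hMS : ∀ q : ℕ, q.Prime → q ∣ M → q ∈ S)
    (hdet : ∀ l : ℕ, l.Prime → l ∉ S → ∀ A : ValuationSubring Qbar, A.LiesOverPrime l →
      ∀ φ : GQ, A.IsFrobeniusAt φ l → (∀ z : 𝒪, ρ.ρ φ ≠ z • (1 : Module.End 𝒪 ρ.V)) →
        LinearMap.det (ρ.ρ φ) = (l : 𝒪) * e (l : ZMod M))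
    (n N : ℕ) (hN1 : 1 ≤ N)
    (hN : maximalIdeal 𝒪 ^ N ≤ Ideal.span {((p ^ n : ℕ) : 𝒪)})
    (τ : GQ) (hτ : ¬ TeScalarMod (maximalIdeal 𝒪 ^ N) (ρ.ρ τ))
    (a : ℕ) (ha : ∀ μ : Qbar, μ ^ (M * p ^ n) = 1 → τ μ = μ ^ a) :
    LinearMap.det (ρ.ρ τ) - (a : 𝒪) * e (a : ZMod M) ∈ Ideal.span {((p ^ n : ℕ) : 𝒪)} := by
  classical
  haveI := Fermat.Agent.Lib.Helper6.isGalois_rat_algebraicClosure
  have hp : p.Prime := Fact.out
  set I := maximalIdeal 𝒪 ^ N with hI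
  have hIm : I ≤ maximalIdeal 𝒪 := Ideal.pow_le_self (by omega)
  set Z := teScalarSubgroup ρ.ρ b I hIm with hZ
  obtain ⟨L₀, hL₀fin, hL₀⟩ := ρ.isAdicContinuous N
  haveI := hL₀fin
  set m : ℕ := M * p ^ n with hm
  haveI : NeZero m := ⟨Nat.mul_ne_zero (NeZero.ne M) (pow_ne_zero n hp.ne_zero)⟩
  set ζ := zetaQbar m with hζdef
  have hζ : IsPrimitiveRoot ζ m := zetaQbar_spec m
  haveI : FiniteDimensional ℚ (IntermediateField.adjoin ℚ {ζ}) :=
    IntermediateField.adjoin.finiteDimensional ((hζ.isIntegral (NeZero.pos _)).tower_top (R := ℤ))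
  set F₀ : IntermediateField ℚ Qbar := L₀ ⊔ IntermediateField.adjoin ℚ {ζ} with hF₀
  haveI : FiniteDimensional ℚ F₀ := IntermediateField.finiteDimensional_sup L₀ _
  set L := IntermediateField.normalClosure ℚ F₀ Qbar with hL
  haveI : FiniteDimensional ℚ L := normalClosure.is_finiteDimensional ℚ F₀ Qbar
  haveI : Normal ℚ L := normalClosure.normal ℚ F₀ Qbar
  have hF₀L : F₀ ≤ L := IntermediateField.le_normalClosure F₀
  have hfixZ : ∀ g : GQ, (∀ x ∈ L, g x = x) → TeCongr I (ρ.ρ g) 1 := by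
    intro g hg v
    exact hL₀ g (fun x hx => hg x (hF₀L ((le_sup_left : L₀ ≤ F₀) hx))) v
  have hζL : ζ ∈ L :=
    hF₀L ((le_sup_right : IntermediateField.adjoin ℚ {ζ} ≤ F₀)
      (IntermediateField.mem_adjoin_simple_self ℚ ζ))
  obtain ⟨l, hl, hlS, P, φ, hPl, hφ, -, ex, he, hφe⟩ :=
    Fermat.Agent.FrobDensity.exists_frobenius_generating L τ S
  set r := AlgEquiv.restrictNormalHom (F := ℚ) (K₁ := Qbar) L τ with hr
  set d := orderOf r with hd
  have hdpos : 0 < d := orderOf_pos r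
  have hτd : ∀ x ∈ L, (τ ^ d) x = x := by
    intro x hx
    have h1 : algebraMap ↥L Qbar ((AlgEquiv.restrictNormalHom (F := ℚ)
        (K₁ := Qbar) ↥L (τ ^ d)) ⟨x, hx⟩) = (τ ^ d) (algebraMap ↥L Qbar ⟨x, hx⟩) :=
      AlgEquiv.restrictNormal_commutes (τ ^ d) ↥L ⟨x, hx⟩
    rw [map_pow, ← hr, hd, pow_orderOf_eq_one] at h1
    exact h1.symm
  set g := (τ ^ ex)⁻¹ * φ with hg
  have hgL : ∀ x ∈ L, g x = x := by
    intro x hx
    change (τ ^ ex)⁻¹ (φ x) = x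
    rw [hφe x hx]
    exact (τ ^ ex).symm_apply_apply x
  have hφeq : φ = τ ^ ex * g := by rw [hg, mul_inv_cancel_left]
  have hgZ : g ∈ Z := ⟨1, by rw [one_smul]; exact hfixZ g hgL⟩
  have hφZ : φ ∉ Z := by
    intro hφZ
    have h2 : τ ^ ex ∈ Z := by
      have : τ ^ ex = φ * g⁻¹ := by rw [hφeq, mul_inv_cancel_right]
      rw [this]
      exact Z.mul_mem hφZ (Z.inv_mem hgZ)
    have h3 : τ ^ d ∈ Z := ⟨1, by rw [one_smul]; exact hfixZ _ hτd⟩
    exact hτ (te_mem_of_pow_mem Z he h2 h3)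
  have hφns : ∀ z : 𝒪, ρ.ρ φ ≠ z • (1 : Module.End 𝒪 ρ.V) := by
    intro z hz
    exact hφZ ⟨z, by rw [hz]; exact TeCongr.refl _ _⟩
  have hdetφ := hdet l hl hlS P hPl φ hφ hφns
  have hlp : l ≠ p := fun h => hlS (h ▸ hpS)
  have hlM : Nat.Coprime M l := by
    rw [Nat.coprime_comm, Nat.Prime.coprime_iff_not_dvd hl]
    intro h
    exact hlS (hMS l hl h)
  have hcop : Nat.Coprime m l :=
    Nat.Coprime.mul_left hlM (Nat.Coprime.pow_left n ((Nat.coprime_primes hp hl).2 hlp.symm))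
  -- the exponents
  have hφζ : φ ζ = ζ ^ l :=
    Fermat.Agent.TW.twp_frobenius_rootOfUnity hPl hφ (NeZero.pos _) hcop hζ.pow_eq_one
  have hτeζ : (τ ^ ex) ζ = ζ ^ (a ^ ex) := te_pow_apply_rootOfUnity τ a ha ex ζ hζ.pow_eq_one
  have hτdζ : (τ ^ d) ζ = ζ ^ (a ^ d) := te_pow_apply_rootOfUnity τ a ha d ζ hζ.pow_eq_one
  have hmod1 : l ≡ a ^ ex [MOD m] := by
    apply te_exponent_modEq m
    rw [← hφζ, ← hτeζ]
    exact hφe ζ hζL
  have hmod2 : a ^ d ≡ 1 [MOD m] := by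
    apply te_exponent_modEq m
    rw [← hτdζ, pow_one]
    exact hτd ζ hζL
  set J : Ideal 𝒪 := Ideal.span {((p ^ n : ℕ) : 𝒪)} with hJ
  have hdetI : ∀ h : GQ, TeCongr I (ρ.ρ h) 1 → Ideal.Quotient.mk J (LinearMap.det (ρ.ρ h)) = 1 := by
    intro h hh
    have h1 := hh.det_sub_mem b
    rw [map_one] at h1
    rw [← map_one (Ideal.Quotient.mk J), ← sub_eq_zero, ← map_sub, Ideal.Quotient.eq_zero_iff_mem]
    exact hN h1
  -- the twisting character on the exponents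
  have he1 : e (l : ZMod M) = e (a : ZMod M) ^ ex := by
    rw [tgz_e_eq_of_modEq p M e hmod1, Nat.cast_pow, map_pow]
  have he2 : e (a : ZMod M) ^ d = 1 := by
    have := tgz_e_eq_of_modEq p M e hmod2
    rwa [Nat.cast_pow, map_pow, Nat.cast_one, map_one] at this
  have hD1 : Ideal.Quotient.mk J (LinearMap.det (ρ.ρ τ)) ^ ex =
      Ideal.Quotient.mk J ((a : 𝒪) * e (a : ZMod M)) ^ ex := by
    have h1 : Ideal.Quotient.mk J (LinearMap.det (ρ.ρ φ)) =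
        Ideal.Quotient.mk J (LinearMap.det (ρ.ρ τ)) ^ ex := by
      rw [hφeq, map_mul, map_mul, map_mul, hdetI g (hfixZ g hgL), mul_one, map_pow, map_pow,
        map_pow]
    rw [← h1, hdetφ, ← map_pow, ← sub_eq_zero, ← map_sub, Ideal.Quotient.eq_zero_iff_mem]
    have h2 := tgz_span_le (𝒪 := 𝒪) p M n (te_cast_sub_mem_of_modEq (R := 𝒪) hmod1)
    rw [Nat.cast_pow a ex] at h2
    have h3 : (l : 𝒪) * e (l : ZMod M) - ((a : 𝒪) * e (a : ZMod M)) ^ ex =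
        ((l : 𝒪) - (a : 𝒪) ^ ex) * e (a : ZMod M) ^ ex := by
      rw [he1]; ring
    rw [h3]
    exact Ideal.mul_mem_right _ _ h2
  have hD2 : Ideal.Quotient.mk J (LinearMap.det (ρ.ρ τ)) ^ d = 1 := by
    have := hdetI (τ ^ d) (hfixZ _ hτd)
    rwa [map_pow, map_pow, map_pow] at this
  have hD3 : Ideal.Quotient.mk J ((a : 𝒪) * e (a : ZMod M)) ^ d = 1 := by
    rw [← map_pow, ← map_one (Ideal.Quotient.mk J), ← sub_eq_zero, ← map_sub,
      Ideal.Quotient.eq_zero_iff_mem]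
    have h2 := tgz_span_le (𝒪 := 𝒪) p M n (te_cast_sub_mem_of_modEq (R := 𝒪) hmod2)
    rw [Nat.cast_pow a d, Nat.cast_one] at h2
    have h3 : ((a : 𝒪) * e (a : ZMod M)) ^ d - 1 = (a : 𝒪) ^ d - 1 := by
      rw [mul_pow, he2, mul_one]
    rw [h3]
    exact h2
  have hfin := te_eq_of_pow_eq he hdpos hD1 hD2 hD3
  rw [← sub_eq_zero, ← map_sub, Ideal.Quotient.eq_zero_iff_mem] at hfin
  exact hfin

/-- **twisted determinant trick**: if the determinants of the non-scalar Frobenius elements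
outside `S` are `l e(l)` and there is a non-scalar element, then the determinant is the `p`-adic
cyclotomic character twisted by `e`. -/
theorem tgz_detTwist (hp𝒪 : (p : 𝒪) ∈ maximalIdeal 𝒪) (hp0 : (p : 𝒪) ≠ 0) (hpS : p ∈ S)
    (hMS : ∀ q : ℕ, q.Prime → q ∣ M → q ∈ S)
    (hdet : ∀ l : ℕ, l.Prime → l ∉ S → ∀ A : ValuationSubring Qbar, A.LiesOverPrime l →
      ∀ φ : GQ, A.IsFrobeniusAt φ l → (∀ z : 𝒪, ρ.ρ φ ≠ z • (1 : Module.End 𝒪 ρ.V)) →
        LinearMap.det (ρ.ρ φ) = (l : 𝒪) * e (l : ZMod M))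
    (hc : ∃ c : GQ, ∀ z : 𝒪, ρ.ρ c ≠ z • (1 : Module.End 𝒪 ρ.V)) :
    TgzDetTwist p ρ M e := by
  classical
  have hp : p.Prime := Fact.out
  set b : Module.Basis (Fin 2) 𝒪 ρ.V := Module.finBasisOfFinrankEq 𝒪 ρ.V ρ.finrank_eq with hb
  obtain ⟨c, hc⟩ := hc
  obtain ⟨N₀, hN₀⟩ := te_exists_not_scalarMod b (ρ.ρ c) hc
  refine ⟨hp𝒪, fun n σ a hσ => ?_⟩
  haveI : NeZero (M * p ^ n) := ⟨Nat.mul_ne_zero (NeZero.ne M) (pow_ne_zero n hp.ne_zero)⟩
  have hpn0 : ((p ^ n : ℕ) : 𝒪) ≠ 0 := by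
    rw [Nat.cast_pow]
    exact pow_ne_zero n hp0
  obtain ⟨k, hk⟩ := te_exists_pow_le_span (𝒪 := 𝒪) hpn0
  set N := max (max N₀ k) 1 with hN
  have hN1 : 1 ≤ N := le_max_right _ _
  have hNk : maximalIdeal 𝒪 ^ N ≤ Ideal.span {((p ^ n : ℕ) : 𝒪)} :=
    (Ideal.pow_le_pow_right ((le_max_right N₀ k).trans (le_max_left _ 1))).trans hk
  have hcN : ¬ TeScalarMod (maximalIdeal 𝒪 ^ N) (ρ.ρ c) := fun h =>
    hN₀ (h.mono (Ideal.pow_le_pow_right ((le_max_left N₀ k).trans (le_max_left _ 1))))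
  by_cases hσZ : TeScalarMod (maximalIdeal 𝒪 ^ N) (ρ.ρ σ)
  · have hIm : maximalIdeal 𝒪 ^ N ≤ maximalIdeal 𝒪 := Ideal.pow_le_self (by omega)
    set Z := teScalarSubgroup ρ.ρ b (maximalIdeal 𝒪 ^ N) hIm with hZ
    have hcσ : ¬ TeScalarMod (maximalIdeal 𝒪 ^ N) (ρ.ρ (c * σ)) := by
      intro h
      have h1 : c * σ ∈ Z := h
      have h2 : σ ∈ Z := hσZ
      have h3 : c ∈ Z := by
        have : c = (c * σ) * σ⁻¹ := by rw [mul_inv_cancel_right]
        rw [this]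
        exact Z.mul_mem h1 (Z.inv_mem h2)
      exact hcN h3
    obtain ⟨ac, hac⟩ := te_exists_exponent c (M * p ^ n)
    have hacσ : ∀ μ : Qbar, μ ^ (M * p ^ n) = 1 → (c * σ) μ = μ ^ (ac * a) := by
      intro μ hμ
      rw [AlgEquiv.mul_apply, hσ μ hμ, map_pow, hac μ hμ, ← pow_mul]
    have h1 := tgz_det_of_not_scalarMod p ρ S M e b hpS hMS hdet n N hN1 hNk c hcN ac hac
    have h2 := tgz_det_of_not_scalarMod p ρ S M e b hpS hMS hdet n N hN1 hNk (c * σ) hcσ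
      (ac * a) hacσ
    rw [map_mul, map_mul] at h2
    have hunit : IsUnit (LinearMap.det (ρ.ρ c)) := by
      refine IsUnit.of_mul_eq_one (LinearMap.det (ρ.ρ c⁻¹)) ?_
      rw [← map_mul, ← map_mul, mul_inv_cancel, map_one, map_one]
    obtain ⟨u, hu⟩ := hunit
    have h3 : (u : 𝒪) * (LinearMap.det (ρ.ρ σ) - (a : 𝒪) * e (a : ZMod M)) ∈
        Ideal.span {((p ^ n : ℕ) : 𝒪)} := by
      have : (u : 𝒪) * (LinearMap.det (ρ.ρ σ) - (a : 𝒪) * e (a : ZMod M)) =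
          (LinearMap.det (ρ.ρ c) * LinearMap.det (ρ.ρ σ) -
            ((ac * a : ℕ) : 𝒪) * e ((ac * a : ℕ) : ZMod M)) -
            (LinearMap.det (ρ.ρ c) - (ac : 𝒪) * e (ac : ZMod M)) *
              ((a : 𝒪) * e (a : ZMod M)) := by
        rw [hu]
        push_cast
        rw [map_mul]
        ring
      rw [this]
      exact Ideal.sub_mem _ h2 (Ideal.mul_mem_right _ _ h1)
    have h4 := Ideal.mul_mem_left _ ((u⁻¹ : 𝒪ˣ) : 𝒪) h3
    rwa [← mul_assoc, Units.inv_mul, one_mul] at h4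
  · exact tgz_det_of_not_scalarMod p ρ S M e b hpS hMS hdet n N hN1 hNk σ hσZ a hσ

/-- the value of `e` at a prime not dividing `M` is not zero -/
lemma tgz_e_ne_zero {l : ℕ} (hl : l.Prime) (hlM : ¬ l ∣ M) : e (l : ZMod M) ≠ 0 := by
  have hcop : Nat.Coprime l M := (Nat.Prime.coprime_iff_not_dvd hl).2 hlM
  have hu : IsUnit ((l : ℕ) : ZMod M) := (ZMod.isUnit_iff_coprime l M).2 hcop
  exact (hu.map e).ne_zero

/-- the characteristic polynomial of a Frobenius element satisfying a quadratic relation, when the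
determinant is the twisted cyclotomic character -/
theorem tgz_charpoly_of_detTwist [CharZero 𝒪] (hdet : TgzDetTwist p ρ M e)
    {l : ℕ} (hl : l.Prime) (hlp : l ≠ p) (hlM : ¬ l ∣ M) {A : ValuationSubring Qbar}
    (hA : A.LiesOverPrime l) {φ : GQ} (hφ : A.IsFrobeniusAt φ l) (t : 𝒪)
    (hquad : ρ.ρ φ * ρ.ρ φ - t • ρ.ρ φ +
      ((l : 𝒪) * e (l : ZMod M)) • (1 : Module.End 𝒪 ρ.V) = 0) :
    LinearMap.charpoly (ρ.ρ φ) = X ^ 2 - C t * X + C ((l : 𝒪) * e (l : ZMod M)) := by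
  classical
  have hp : p.Prime := Fact.out
  set b : Module.Basis (Fin 2) 𝒪 ρ.V := Module.finBasisOfFinrankEq 𝒪 ρ.V ρ.finrank_eq with hb
  by_cases hsc : ∃ z : 𝒪, ρ.ρ φ = z • (1 : Module.End 𝒪 ρ.V)
  · obtain ⟨z, hz⟩ := hsc
    have hd : LinearMap.det (ρ.ρ φ) = (l : 𝒪) * e (l : ZMod M) := by
      have hall : ∀ n : ℕ, LinearMap.det (ρ.ρ φ) - (l : 𝒪) * e (l : ZMod M) ∈
          maximalIdeal 𝒪 ^ n := by
        intro n
        have hcop : Nat.Coprime (M * p ^ n) l :=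
          Nat.Coprime.mul_left
            (Nat.Coprime.symm ((Nat.Prime.coprime_iff_not_dvd hl).2 hlM))
            (Nat.Coprime.pow_left n ((Nat.coprime_primes hp hl).2 hlp.symm))
        have hpos : 0 < M * p ^ n := Nat.mul_pos (NeZero.pos M) (pow_pos hp.pos n)
        have h1 := hdet.2 n φ l (fun μ hμ =>
          Fermat.Agent.TW.twp_frobenius_rootOfUnity hA hφ hpos hcop hμ)
        have h2 : Ideal.span {((p ^ n : ℕ) : 𝒪)} ≤ maximalIdeal 𝒪 ^ n := by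
          rw [Nat.cast_pow, ← Ideal.span_singleton_pow]
          exact Ideal.pow_right_mono ((Ideal.span_singleton_le_iff_mem _).2 hdet.1) n
        exact h2 h1
      have h1 := Ideal.iInf_pow_eq_bot_of_isLocalRing (maximalIdeal 𝒪) Ideal.IsPrime.ne_top'
      have h2 : LinearMap.det (ρ.ρ φ) - (l : 𝒪) * e (l : ZMod M) ∈
          ⨅ i : ℕ, maximalIdeal 𝒪 ^ i := by
        rw [Submodule.mem_iInf]
        exact hall
      rw [h1] at h2
      exact sub_eq_zero.1 h2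
    exact te_charpoly_of_scalar b (ρ.ρ φ) t _ z hquad hz hd
      (mul_ne_zero (Nat.cast_ne_zero.2 hl.ne_zero) (tgz_e_ne_zero M e hl hlM))
  · push Not at hsc
    exact (te_charpoly_of_not_scalar b (ρ.ρ φ) t _ hquad hsc).2.2

/-- **assembly of the twisted determinant trick**: quadratic relations `F² - t F + l e(l) = 0` for
the Frobenius elements outside `S` and a non-scalar element give the determinant and all the
characteristic polynomials. -/
theorem tgz_charpoly_of_quadratic [CharZero 𝒪] (hp𝒪 : (p : 𝒪) ∈ maximalIdeal 𝒪) (hpS : p ∈ S)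
    (hMS : ∀ q : ℕ, q.Prime → q ∣ M → q ∈ S)
    (hquad : ∀ l : ℕ, l.Prime → l ∉ S → ∀ A : ValuationSubring Qbar, A.LiesOverPrime l →
      ∀ φ : GQ, A.IsFrobeniusAt φ l → ∃ t : 𝒪,
        ρ.ρ φ * ρ.ρ φ - t • ρ.ρ φ + ((l : 𝒪) * e (l : ZMod M)) • (1 : Module.End 𝒪 ρ.V) = 0)
    (hc : ∃ c : GQ, ∀ z : 𝒪, ρ.ρ c ≠ z • (1 : Module.End 𝒪 ρ.V)) :
    TgzDetTwist p ρ M e ∧
      ∀ l : ℕ, l.Prime → l ∉ S → ∀ A : ValuationSubring Qbar, A.LiesOverPrime l →
        ∀ φ : GQ, A.IsFrobeniusAt φ l → ∀ t : 𝒪,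
          ρ.ρ φ * ρ.ρ φ - t • ρ.ρ φ + ((l : 𝒪) * e (l : ZMod M)) • (1 : Module.End 𝒪 ρ.V) = 0 →
            LinearMap.charpoly (ρ.ρ φ) = X ^ 2 - C t * X + C ((l : 𝒪) * e (l : ZMod M)) := by
  have hp : p.Prime := Fact.out
  have hp0 : (p : 𝒪) ≠ 0 := Nat.cast_ne_zero.2 hp.ne_zero
  have hcyc : TgzDetTwist p ρ M e := by
    refine tgz_detTwist p ρ S M e hp𝒪 hp0 hpS hMS ?_ hc
    intro l hl hlS A hA φ hφ hns
    obtain ⟨t, ht⟩ := hquad l hl hlS A hA φ hφ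
    exact (te_charpoly_of_not_scalar
      (Module.finBasisOfFinrankEq 𝒪 ρ.V ρ.finrank_eq) (ρ.ρ φ) t _ ht hns).2.1
  refine ⟨hcyc, fun l hl hlS A hA φ hφ t ht => ?_⟩
  exact tgz_charpoly_of_detTwist p ρ M e hcyc hl (fun h => hlS (h ▸ hpS))
    (fun h => hlS (hMS l hl h)) hA hφ t ht

end DetTwist

end

end Fermat.Agent.T1G
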