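/-
T1G (H) TG-ASM (abstract assembly with nebentypus), file 2: **(Γ₁-S30) from the Tate module
package**, generic in the Hecke ring `𝕋`.

`tgz_galoisRep_of_package`: a free `ℤ_p`-module `T` of finite rank with commuting actions `gal` of
`G_ℚ` (continuous modulo `p ^ n`, unramified outside `M p`) and `hecke` of a commutative ring `𝕋`,
elements `Tl l : 𝕋` and a homomorphism `dia : (ℤ/M)ˣ →* 𝕋` (diamond operators) with the
Eichler–Shimura relations `F² - T_l F + l ⟨l⟩ = 0` for the Frobenius elements at `l ∤ M p`; an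
eigensystem `lam : 𝕋 →+* 𝒪` whose eigen-lattice has rank two and carries a non-scalar element
⟹ a `GaloisRepAdic 𝒪` with `charpoly ρ(Frob_l) = X² - lam(T_l) X + l lam(⟨l⟩)`, unramified outside
`M p`, with determinant the cyclotomic character twisted by `lam ∘ dia`.
The eigen-lattice representation `teRep` of `Lib/T1/Asm/EigenRep.lean` is generic and imported.
-/
import Fermat.Agent.Lib.T1.Asm.EigenRep
import Fermat.Agent.Lib.T1G.Asm.DetTwist
set_option autoImplicit false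
set_option linter.unusedSectionVars false
set_option linter.unusedVariables false
set_option linter.style.haveILetI false

open scoped TensorProduct
open IsLocalRing Polynomial Fermat.Agent.CFT Fermat.Agent.T1

namespace Fermat.Agent.T1G

noncomputable section

section Rep

variable {p : ℕ} [Fact p.Prime] {T : Type} [AddCommGroup T] [Module ℤ_[p] T]
  [Module.Free ℤ_[p] T] [Module.Finite ℤ_[p] T]
  (gal : GQ →* Module.End ℤ_[p] T)
  {𝕋 : Type} [CommRing 𝕋] (hecke : 𝕋 →+* Module.End ℤ_[p] T)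
  (hcomm : ∀ σ t, gal σ * hecke t = hecke t * gal σ)
  (hcont : ∀ n : ℕ, ∃ L : IntermediateField ℚ Qbar, FiniteDimensional ℚ L ∧
    ∀ σ : GQ, (∀ x ∈ L, σ x = x) → ∀ v : T, ∃ w : T, gal σ v - v = (p : ℤ_[p]) ^ n • w)
  {𝒪 : Type} [CommRing 𝒪] [IsDomain 𝒪] [IsDiscreteValuationRing 𝒪] [Algebra ℤ_[p] 𝒪]
  (hp𝒪 : (p : 𝒪) ∈ maximalIdeal 𝒪) (hp0 : (p : 𝒪) ≠ 0)
  (lam : 𝕋 →+* 𝒪) (h2 : Module.finrank 𝒪 ↥(teEigen hecke lam) = 2)

/-- the Eichler–Shimura relation with nebentypus `F² - T_l F + l ⟨l⟩ = 0` on the Tate module gives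
the quadratic relation `F² - lam(T_l) F + l lam(⟨l⟩) = 0` on the eigen-lattice -/
theorem tgzRep_quadratic (σ : GQ) (t d : 𝕋) (l : ℕ)
    (h : gal σ * gal σ - hecke t * gal σ + (l : ℤ_[p]) • hecke d = 0) :
    (teRep gal hecke hcomm hcont hp𝒪 hp0 lam h2).ρ σ *
        (teRep gal hecke hcomm hcont hp𝒪 hp0 lam h2).ρ σ -
      lam t • (teRep gal hecke hcomm hcont hp𝒪 hp0 lam h2).ρ σ +
      ((l : 𝒪) * lam d) • (1 : Module.End 𝒪 (teRep gal hecke hcomm hcont hp𝒪 hp0 lam h2).V) = 0 := by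
  apply LinearMap.ext
  intro x
  apply Subtype.ext
  have hx := (mem_teEigen hecke lam).1
    (teEigen_stable hecke lam (gal σ) (hcomm σ) (x : teEigen hecke lam).2) t
  have hxd := (mem_teEigen hecke lam).1 (x : teEigen hecke lam).2 d
  have h1 := congrArg (fun g => (g.baseChange 𝒪) (x : teEigen hecke lam).1) h
  simp only [LinearMap.baseChange_add, LinearMap.baseChange_sub, LinearMap.baseChange_mul,
    LinearMap.baseChange_smul, LinearMap.baseChange_zero,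
    LinearMap.add_apply, LinearMap.sub_apply, Module.End.mul_apply, LinearMap.smul_apply,
    LinearMap.zero_apply] at h1
  rw [hx, hxd, algebra_compatible_smul 𝒪 (l : ℤ_[p]) (lam d • (x : teEigen hecke lam).1),
    map_natCast, smul_smul] at h1
  exact h1

end Rep

/-- **abstract assembly of (Γ₁-S30)**: from a "Tate module package" `(T, gal, hecke)` with the
Eichler–Shimura relations with nebentypus the Galois representation attached to the eigensystem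
`lam`. -/
theorem tgz_galoisRep_of_package (p : ℕ) [Fact p.Prime] (M : ℕ) [NeZero M] (S : Finset ℕ)
    (hpS : p ∈ S) (hMS : ∀ q : ℕ, q.Prime → q ∣ M → q ∈ S)
    {T : Type} [AddCommGroup T] [Module ℤ_[p] T] [Module.Free ℤ_[p] T] [Module.Finite ℤ_[p] T]
    (gal : GQ →* Module.End ℤ_[p] T)
    {𝕋 : Type} [CommRing 𝕋] (hecke : 𝕋 →+* Module.End ℤ_[p] T)
    (hcomm : ∀ σ t, gal σ * hecke t = hecke t * gal σ)
    (hcont : ∀ n : ℕ, ∃ L : IntermediateField ℚ Qbar, FiniteDimensional ℚ L ∧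
      ∀ σ : GQ, (∀ x ∈ L, σ x = x) → ∀ v : T, ∃ w : T, gal σ v - v = (p : ℤ_[p]) ^ n • w)
    (Tl : ℕ → 𝕋) (dia : (ZMod M)ˣ →* 𝕋)
    (hunr : ∀ q : ℕ, q.Prime → ¬ q ∣ M → q ≠ p → ∀ P : ValuationSubring Qbar,
      P.LiesOverPrime q → ∀ σ ∈ P.inertiaSubgroupIn ℚ, gal σ = 1)
    (hES : ∀ l : ℕ, l.Prime → ¬ l ∣ M → l ≠ p → ∀ u : (ZMod M)ˣ, (u : ZMod M) = (l : ZMod M) →
      ∀ A : ValuationSubring Qbar, A.LiesOverPrime l → ∀ σ : GQ, A.IsFrobeniusAt σ l →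
        gal σ * gal σ - hecke (Tl l) * gal σ + (l : ℤ_[p]) • hecke (dia u) = 0)
    {𝒪 : Type} [CommRing 𝒪] [IsDomain 𝒪] [IsDiscreteValuationRing 𝒪] [CharZero 𝒪]
    [Algebra ℤ_[p] 𝒪] (hp𝒪 : (p : 𝒪) ∈ maximalIdeal 𝒪) (lam : 𝕋 →+* 𝒪)
    (h2 : Module.finrank 𝒪 ↥(teEigen hecke lam) = 2)
    (hc : ∃ c : GQ, ∃ v ∈ teEigen hecke lam, ∀ z : 𝒪, (gal c).baseChange 𝒪 v ≠ z • v) :
    ∃ ρ : GaloisRepAdic 𝒪,
      (∀ l : ℕ, l.Prime → ¬ l ∣ M → l ∉ S → ∀ u : (ZMod M)ˣ, (u : ZMod M) = (l : ZMod M) →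
        ∀ A : ValuationSubring Qbar, A.LiesOverPrime l →
        ∀ σ : GQ, A.IsFrobeniusAt σ l →
          LinearMap.charpoly (ρ.ρ σ) =
            X ^ 2 - C (lam (Tl l)) * X + C ((l : 𝒪) * lam (dia u))) ∧
      (∀ q : ℕ, q.Prime → ¬ q ∣ M → q ≠ p → ρ.IsUnramifiedAt q) ∧
      TgzDetTwist p ρ M (MulChar.ofUnitHom (((lam : 𝕋 →* 𝒪).comp dia).toHomUnits)) := by
  have hp : p.Prime := Fact.out
  have hp0 : (p : 𝒪) ≠ 0 := Nat.cast_ne_zero.2 hp.ne_zero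
  set ρ := teRep gal hecke hcomm hcont hp𝒪 hp0 lam h2 with hρ
  set e : MulChar (ZMod M) 𝒪 := MulChar.ofUnitHom (((lam : 𝕋 →* 𝒪).comp dia).toHomUnits) with he
  have he_apply : ∀ (l : ℕ) (u : (ZMod M)ˣ), (u : ZMod M) = (l : ZMod M) →
      e (l : ZMod M) = lam (dia u) := by
    intro l u hu
    rw [← hu, he, MulChar.ofUnitHom_coe, MonoidHom.coe_toHomUnits]
    rfl
  have hlN : ∀ l : ℕ, l.Prime → l ∉ S → ¬ l ∣ M ∧ l ≠ p := fun l hl hlS =>
    ⟨fun h => hlS (hMS l hl h), fun h => hlS (h ▸ hpS)⟩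
  have hunit : ∀ l : ℕ, l.Prime → ¬ l ∣ M → ∃ u : (ZMod M)ˣ, (u : ZMod M) = (l : ZMod M) := by
    intro l hl hlM
    have hcop : Nat.Coprime l M := (Nat.Prime.coprime_iff_not_dvd hl).2 hlM
    exact ⟨ZMod.unitOfCoprime l hcop, ZMod.coe_unitOfCoprime l hcop⟩
  have hq : ∀ l : ℕ, l.Prime → l ∉ S → ∀ A : ValuationSubring Qbar, A.LiesOverPrime l →
      ∀ φ : GQ, A.IsFrobeniusAt φ l →
        ρ.ρ φ * ρ.ρ φ - lam (Tl l) • ρ.ρ φ +
          ((l : 𝒪) * e (l : ZMod M)) • (1 : Module.End 𝒪 ρ.V) = 0 := by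
    intro l hl hlS A hA φ hφ
    obtain ⟨u, hu⟩ := hunit l hl (hlN l hl hlS).1
    rw [he_apply l u hu]
    exact tgzRep_quadratic gal hecke hcomm hcont hp𝒪 hp0 lam h2 φ (Tl l) (dia u) l
        (hES l hl (hlN l hl hlS).1 (hlN l hl hlS).2 u hu A hA φ hφ)
  obtain ⟨c, hcv⟩ := hc
  obtain ⟨hcyc, hchar⟩ := tgz_charpoly_of_quadratic p ρ S M e hp𝒪 hpS hMS
    (fun l hl hlS A hA φ hφ => ⟨lam (Tl l), hq l hl hlS A hA φ hφ⟩)
    ⟨c, teRep_not_scalar gal hecke hcomm hcont hp𝒪 hp0 lam h2 c hcv⟩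
  refine ⟨ρ, fun l hl _ hlS u hu A hA σ hσ => ?_, fun q hq hqN hqp => ?_, hcyc⟩
  · rw [← he_apply l u hu]
    exact hchar l hl hlS A hA σ hσ (lam (Tl l)) (hq l hl hlS A hA σ hσ)
  · exact teRep_isUnramifiedAt gal hecke hcomm hcont hp𝒪 hp0 lam h2 q (hunr q hq hqN hqp)

end

end Fermat.Agent.T1G
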