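/-
T1G (H) TG-ASM, file 3: **(Γ₁-S30) from its two inputs** (port of `Lib/T1/Asm/S30Skeleton.lean`).

`TgzPackage p M` : the Tate module package with nebentypus: `T`, `gal`, `hecke` with
  commutation, continuity, unramifiedness outside `M p`, the Eichler–Shimura relations
  `F² - T_l F + l ⟨l⟩ = 0` and rank two / non-scalar complex conjugation of the eigen-lattices.
`TgzExtension p M S` : extension of eigensystems to the full Hecke algebra over a finite extension.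
`TgzS30 p M S` : the statement (Γ₁-S30).
`tgz_S30_of_package` : `TgzPackage p M → TgzExtension p M S → TgzS30 p M S`.
-/
import Fermat.Agent.Lib.T1G.Asm.Assembly
import Fermat.Agent.Lib.T1G.Mult.HeckeAlg
import Fermat.Agent.Lib.T1.Asm.PadicAlgebra
set_option autoImplicit false
set_option linter.unusedSectionVars false
set_option linter.unusedVariables false
set_option linter.style.haveILetI false

open scoped TensorProduct
open IsLocalRing Polynomial Fermat.Agent.CFT Fermat.Agent.T1 CongruenceSubgroup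

namespace Fermat.Agent.T1G

noncomputable section

/-- the Tate module package with nebentypus (output of TG-DESC + TG-KRON + TG-MULT), in the form
consumed by the assembly -/
def TgzPackage (p : ℕ) [Fact p.Prime] (M : ℕ) [NeZero M] : Prop :=
  ∃ (T : Type) (_ : AddCommGroup T) (_ : Module ℤ_[p] T) (_ : Module.Free ℤ_[p] T)
    (_ : Module.Finite ℤ_[p] T) (gal : GQ →* Module.End ℤ_[p] T)
    (hecke : tgHeckeAlg M (∅ : Set ℕ) →+* Module.End ℤ_[p] T),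
    (∀ σ t, gal σ * hecke t = hecke t * gal σ) ∧
    (∀ n : ℕ, ∃ L : IntermediateField ℚ Qbar, FiniteDimensional ℚ L ∧
      ∀ σ : GQ, (∀ x ∈ L, σ x = x) → ∀ v : T, ∃ w : T, gal σ v - v = (p : ℤ_[p]) ^ n • w) ∧
    (∀ q : ℕ, q.Prime → ¬ q ∣ M → q ≠ p → ∀ P : ValuationSubring Qbar,
      P.LiesOverPrime q → ∀ σ ∈ P.inertiaSubgroupIn ℚ, gal σ = 1) ∧
    (∀ (l : ℕ) (hl : l.Prime) (hlM : ¬ l ∣ M), l ≠ p →
      ∀ u : (ZMod M)ˣ, (u : ZMod M) = (l : ZMod M) → ∀ A : ValuationSubring Qbar,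
      A.LiesOverPrime l → ∀ σ : GQ, A.IsFrobeniusAt σ l →
        gal σ * gal σ - hecke (tgT hl hlM (Set.notMem_empty l)) * gal σ +
          (l : ℤ_[p]) • hecke (tgDia M ∅ u) = 0) ∧
    (∀ (𝒪 : Type) [CommRing 𝒪] [IsDomain 𝒪] [IsDiscreteValuationRing 𝒪] [CharZero 𝒪]
      [Algebra ℤ_[p] 𝒪] (lam : tgHeckeAlg M (∅ : Set ℕ) →+* 𝒪),
      Module.finrank 𝒪 ↥(teEigen hecke lam) = 2 ∧
      ∃ c : GQ, ∃ v ∈ teEigen hecke lam, ∀ z : 𝒪, (gal c).baseChange 𝒪 v ≠ z • v)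

/-- extension of an eigensystem of the Hecke algebra away from `S` to the full Hecke algebra, over
a finite extension of the coefficient ring -/
def TgzExtension (p : ℕ) [Fact p.Prime] (M : ℕ) [NeZero M] (S : Set ℕ) : Prop :=
  ∀ (𝒪' : Type) [CommRing 𝒪'] [IsDomain 𝒪'] [IsDiscreteValuationRing 𝒪']
    [IsAdicComplete (maximalIdeal 𝒪') 𝒪'] [Finite (ResidueField 𝒪')] [CharZero 𝒪']
    (_ : (p : 𝒪') ∈ maximalIdeal 𝒪') (χ : tgHeckeAlg M S →+* 𝒪'),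
    ∃ (𝒪'' : Type) (_ : CommRing 𝒪'') (_ : IsDomain 𝒪'') (_ : IsDiscreteValuationRing 𝒪'')
      (_ : IsAdicComplete (maximalIdeal 𝒪'') 𝒪'') (_ : Finite (ResidueField 𝒪''))
      (_ : CharZero 𝒪'') (_ : Algebra 𝒪' 𝒪'') (_ : Module.Finite 𝒪' 𝒪'')
      (_ : IsLocalHom (algebraMap 𝒪' 𝒪'')),
      Function.Injective (algebraMap 𝒪' 𝒪'') ∧
      ∃ lam : tgHeckeAlg M (∅ : Set ℕ) →+* 𝒪'',
        ∀ t : tgHeckeAlg M S,
          lam (tgHeckeIncl (Set.empty_subset S) t) = algebraMap 𝒪' 𝒪'' (χ t)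

/-- **(Γ₁-S30)**: Galois representations attached to eigensystems of the Hecke algebra of weight
`2` and level `Γ₁(M)` away from `S`, with values in complete discrete valuation rings -/
def TgzS30 (p : ℕ) [Fact p.Prime] (M : ℕ) [NeZero M] (S : Finset ℕ) : Prop :=
  ∀ (𝒪' : Type) [CommRing 𝒪'] [IsDomain 𝒪'] [IsDiscreteValuationRing 𝒪']
    [IsAdicComplete (maximalIdeal 𝒪') 𝒪'] [Finite (ResidueField 𝒪')] [CharZero 𝒪']
    (_ : (p : 𝒪') ∈ maximalIdeal 𝒪') (χ : tgHeckeAlg M (↑S : Set ℕ) →+* 𝒪'),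
    ∃ (𝒪'' : Type) (_ : CommRing 𝒪'') (_ : IsDomain 𝒪'') (_ : IsDiscreteValuationRing 𝒪'')
      (_ : IsAdicComplete (maximalIdeal 𝒪'') 𝒪'') (_ : Finite (ResidueField 𝒪''))
      (_ : CharZero 𝒪'') (_ : Algebra 𝒪' 𝒪'') (_ : Module.Finite 𝒪' 𝒪'')
      (_ : IsLocalHom (algebraMap 𝒪' 𝒪'')),
      Function.Injective (algebraMap 𝒪' 𝒪'') ∧
      ∃ ρ : GaloisRepAdic 𝒪'',
        (∀ (l : ℕ) (hl : l.Prime) (hlM : ¬ l ∣ M) (hlS : l ∉ (↑S : Set ℕ)) (u : (ZMod M)ˣ),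
          (u : ZMod M) = (l : ZMod M) →
          ∀ A : ValuationSubring Qbar, A.LiesOverPrime l →
            ∀ σ : GQ, A.IsFrobeniusAt σ l →
              LinearMap.charpoly (ρ.ρ σ) =
                X ^ 2 - C (algebraMap 𝒪' 𝒪'' (χ (tgT hl hlM hlS))) * X
                  + C ((l : 𝒪'') * algebraMap 𝒪' 𝒪'' (χ (tgDia M (↑S : Set ℕ) u)))) ∧
        (∀ q : ℕ, q.Prime → ¬ q ∣ M → q ≠ p → ρ.IsUnramifiedAt q)

/-- **(Γ₁-S30) from the package and the extension property** -/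
theorem tgz_S30_of_package (p : ℕ) [Fact p.Prime] (M : ℕ) [NeZero M] (S : Finset ℕ)
    (hpS : p ∈ S) (hMS : ∀ q : ℕ, q.Prime → q ∣ M → q ∈ S)
    (hpkg : TgzPackage p M) (hext : TgzExtension p M (↑S : Set ℕ)) : TgzS30 p M S := by
  classical
  intro 𝒪' _ _ _ _ _ _ hp𝒪' χ
  obtain ⟨𝒪'', i1, i2, i3, i4, i5, i6, i7, i8, i9, hinj, lam, hlam⟩ := hext 𝒪' hp𝒪' χ
  refine ⟨𝒪'', i1, i2, i3, i4, i5, i6, i7, i8, i9, hinj, ?_⟩
  have hp'' : (p : 𝒪'') ∈ maximalIdeal 𝒪'' := by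
    rw [mem_maximalIdeal, mem_nonunits_iff] at hp𝒪' ⊢
    intro hu
    apply hp𝒪'
    have : (p : 𝒪'') = algebraMap 𝒪' 𝒪'' (p : 𝒪') := (map_natCast _ p).symm
    rw [this] at hu
    exact isUnit_of_map_unit (algebraMap 𝒪' 𝒪'') _ hu
  letI : Algebra ℤ_[p] 𝒪'' := tePadicAlgebra p 𝒪'' hp''
  obtain ⟨T, j1, j2, j3, j4, gal, hecke, hcomm, hcont, hunr, hES, h56⟩ := hpkg
  obtain ⟨h2, hc⟩ := h56 𝒪'' lam
  set Tl : ℕ → tgHeckeAlg M (∅ : Set ℕ) := fun l =>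
    if h : l.Prime ∧ ¬ l ∣ M then tgT h.1 h.2 (Set.notMem_empty l) else 0
    with hTl
  have hTl' : ∀ (l : ℕ) (hl : l.Prime) (hlM : ¬ l ∣ M),
      Tl l = tgT hl hlM (Set.notMem_empty l) := by
    intro l hl hlM
    rw [hTl]
    simp only
    rw [dif_pos ⟨hl, hlM⟩]
  obtain ⟨ρ, hρ1, hρ2, -⟩ := tgz_galoisRep_of_package p M S hpS hMS gal hecke hcomm hcont Tl
    (tgDia M ∅) hunr
    (fun l hl hlM hlp u hu A hA σ hσ => by
      rw [hTl' l hl hlM]; exact hES l hl hlM hlp u hu A hA σ hσ)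
    hp'' lam h2 hc
  refine ⟨ρ, fun l hl hlM hlS u hu A hA σ hσ => ?_, hρ2⟩
  rw [hρ1 l hl hlM hlS u hu A hA σ hσ, hTl' l hl hlM, ← hlam, ← hlam]
  rfl

end

end Fermat.Agent.T1G
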