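/-
T1G (H) TG-ASM, file 4: **(Γ₁-RES) from (Γ₁-S30)**.

`tgz_extension : TgzExtension p M S` (helper8's (H7), finiteness of the Hecke algebra).
`tgz_gamma1Res : TgzS30All → DsvGamma1Res`: a cusp form `g ∈ S₂(Γ₁(M))` with character and
coefficients in `ℤ̄` which is an eigenvector modulo `ℓ` of the `T_p` (`p ∤ M ℓ`) gives an
eigensystem `θ : tgHeckeAlg M S → DslRes ℓ` (`S = primes(M) ∪ {ℓ}`; `dsv_exists_theta`), which lifts
to a complete discrete valuation ring (`dsv_exists_dvr_of_hom`); (Γ₁-S30) gives an `ℓ`-adic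
representation, whose reduction in matrix form is the residual representation.
`tgz_gamma1Res_of_package : TgzPackageAll → DsvGamma1Res`.
-/
import Fermat.Agent.Lib.T1G.Asm.Skeleton
import Fermat.Agent.Lib.T1G.Mult.HeckeFinite
import Fermat.Agent.Lib.T1G.Mult.HeckeElts
import Fermat.Agent.Lib.T1G.Mult.Cusp
import Fermat.Agent.Lib.DS.Res.Theta
import Fermat.Agent.Lib.DS.Res.LiftChar
import Fermat.Agent.Lib.DS.Res.AlgClosed
import Fermat.Agent.Lib.T1.Asm.Res.S42Glue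
set_option autoImplicit false
set_option linter.unusedSectionVars false
set_option linter.unusedVariables false
set_option linter.style.haveILetI false

open scoped TensorProduct
open IsLocalRing Polynomial Fermat.Agent.CFT Fermat.Agent.T1 Fermat.Agent.DS CongruenceSubgroup
  ModularFormClass

namespace Fermat.Agent.T1G

noncomputable section

instance tgHeckeAlg.instIsTorsionFree (M : ℕ) [NeZero M] (S : Set ℕ) :
    Module.IsTorsionFree ℤ (tgHeckeAlg M S) := by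
  haveI : IsAddTorsionFree (Module.End ℂ (CuspForm (Gamma1 M) 2)) :=
    IsAddTorsionFree.of_isTorsionFree ℂ _
  infer_instance

/-- (H7) in the form of `TgzExtension` -/
theorem tgz_extension (p : ℕ) [Fact p.Prime] (M : ℕ) [NeZero M] (S : Set ℕ) :
    TgzExtension p M S :=
  fun 𝒪' _ _ _ _ _ _ _ χ => tgk_extension S 𝒪' χ

/-- a two-dimensional residual representation in matrix form -/
theorem tgr_exists_GL2 {k : Type} [Field k] (ρ : ResidualGaloisRep k) :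
    ∃ ρbar : GQ →* GL (Fin 2) k, GaloisFactorsThroughFiniteLevel ρbar ∧
      (∀ σ, ρ.ρ σ = 1 → ρbar σ = 1) ∧
      ∀ σ, ((ρbar σ : GL (Fin 2) k) : Matrix (Fin 2) (Fin 2) k).trace
            = LinearMap.trace k ρ.V (ρ.ρ σ) ∧
          ((ρbar σ : GL (Fin 2) k) : Matrix (Fin 2) (Fin 2) k).det = LinearMap.det (ρ.ρ σ) := by
  classical
  let b : Module.Basis (Fin 2) k ρ.V := Module.finBasisOfFinrankEq k ρ.V ρ.finrank_eq
  let φ : Module.End k ρ.V →* Matrix (Fin 2) (Fin 2) k :=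
    ((LinearMap.toMatrixAlgEquiv b : Module.End k ρ.V ≃ₐ[k] Matrix (Fin 2) (Fin 2) k) :
      Module.End k ρ.V →* Matrix (Fin 2) (Fin 2) k)
  have hφ : ∀ f, φ f = LinearMap.toMatrix b b f := fun f => rfl
  let ρbar : GQ →* GL (Fin 2) k := (φ.comp ρ.ρ).toHomUnits
  have hρbar : ∀ σ, ((ρbar σ : GL (Fin 2) k) : Matrix (Fin 2) (Fin 2) k)
      = LinearMap.toMatrix b b (ρ.ρ σ) := fun σ => rfl
  have hone : ∀ σ, ρ.ρ σ = 1 → ρbar σ = 1 := by
    intro σ hσ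
    apply Units.ext
    rw [hρbar, hσ, Units.val_one]
    exact LinearMap.toMatrix_one b
  refine ⟨ρbar, ?_, hone, fun σ => ⟨?_, ?_⟩⟩
  · obtain ⟨L, hL, h1⟩ := ρ.factorsThroughFiniteLevel
    exact ⟨L, hL, fun σ hσ => hone σ (h1 σ hσ)⟩
  · rw [hρbar, LinearMap.trace_eq_matrix_trace k b]
  · rw [hρbar, LinearMap.det_toMatrix b]

/-- (Γ₁-S30) for all admissible levels -/
def TgzS30All : Prop :=
  ∀ (M : ℕ) [NeZero M], 5 ≤ M → (4 ∣ M ∨ 9 ∣ M) → ∀ (p : ℕ) [Fact p.Prime] (S : Finset ℕ),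
    p ∈ S → (∀ q : ℕ, q.Prime → q ∣ M → q ∈ S) → TgzS30 p M S

theorem tgr_eigen_cast {M : ℕ} [NeZero M] {ℓ : ℕ} [Fact ℓ.Prime]
    {χ : DirichletCharacter ℂ M} {g : CuspForm (Gamma1 M) 2}
    {c : ℕ → integralClosure ℤ ℂ} {x : ZMod M → integralClosure ℤ ℂ}
    (hc : ∀ n : ℕ, (c n : ℂ) = qCoeff g n) (hx : ∀ d : ZMod M, (x d : ℂ) = χ d) (p n : ℕ) :
    dsvRedC ℓ (qCoeff g (p * n) + (p : ℂ) * χ (p : ZMod M) *
        (if p ∣ n then qCoeff g (n / p) else 0)) =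
      dslRed ℓ (c (p * n) + (p : integralClosure ℤ ℂ) * x (p : ZMod M) *
        (if p ∣ n then c (n / p) else 0)) := by
  rw [← dsvRedC_coe]
  congr 1
  by_cases hpn : p ∣ n
  · rw [if_pos hpn, if_pos hpn]
    push_cast
    rw [hc, hc, hx]
  · rw [if_neg hpn, if_neg hpn]
    push_cast
    rw [hc, hx]


/-- **(Γ₁-RES) from (Γ₁-S30)** -/
theorem tgz_gamma1Res (h30 : TgzS30All) : DsvGamma1Res := by
  classical
  intro M _ hM5 hM49 ℓ _ χ g c x abar hχ hc hx h1 heig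
  have hℓ : ℓ.Prime := Fact.out
  have hM0 : M ≠ 0 := NeZero.ne M
  -- the lattice
  have hg : DsvLat χ g := ⟨hχ, fun n => by rw [← hc n]; exact (c n).2⟩
  have h1' : dsvRedC ℓ (qCoeff g 1) ≠ 0 := by rw [← hc 1, dsvRedC_coe]; exact h1
  -- the finite set of bad primes
  obtain ⟨S, hS⟩ : ∃ S : Finset ℕ, S = insert ℓ M.primeFactors := ⟨_, rfl⟩
  have hℓS : ℓ ∈ S := by rw [hS]; exact Finset.mem_insert_self _ _
  have hMS : ∀ q : ℕ, q.Prime → q ∣ M → q ∈ S := by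
    intro q hq hqM
    rw [hS]
    exact Finset.mem_insert_of_mem (Nat.mem_primeFactors.mpr ⟨hq, hqM, hM0⟩)
  have hnotS : ∀ p : ℕ, p.Prime → ¬ p ∣ M → p ≠ ℓ → p ∉ (↑S : Set ℕ) := by
    intro p hp hpM hpℓ hmem
    rw [Finset.mem_coe, hS, Finset.mem_insert] at hmem
    rcases hmem with h | h
    · exact hpℓ h
    · exact hpM (Nat.dvd_of_mem_primeFactors h)
  have hSnot : ∀ p : ℕ, p.Prime → p ∉ (↑S : Set ℕ) → ¬ p ∣ M ∧ p ≠ ℓ := by
    intro p hp hpS
    refine ⟨fun h => hpS (hMS p hp h), ?_⟩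
    rintro rfl
    exact hpS hℓS
  -- the eigenvalue equations
  have heig' : ∀ (p : ℕ) (hp : p.Prime) (hpM : ¬ p ∣ M), p ≠ ℓ → ∀ n : ℕ,
      dsvRedC ℓ (qCoeff g (p * n) + (p : ℂ) * χ (p : ZMod M) *
        (if p ∣ n then qCoeff g (n / p) else 0)) = abar p * dsvRedC ℓ (qCoeff g n) := by
    intro p hp hpM hpℓ n
    rw [tgr_eigen_cast hc hx p n, heig p hp hpM hpℓ n, ← hc n, dsvRedC_coe]
  -- the generators are good
  have hGs : ∀ t ∈ tgHeckeGens M (↑S : Set ℕ), DsvGood ℓ χ g t := by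
    rintro t ((⟨p, hp, hpM, hpS, rfl⟩ | ⟨p, hp, hpM, hpS, rfl⟩) | ⟨d, rfl⟩)
    · exact (dsv_good_T h1' hg hp hpM (abar p) (heig' p hp hpM (hSnot p hp hpS).2)).1
    · exact absurd hpM (hSnot p hp hpS).1
    · exact (dsv_good_diamond h1' hg d).1
  obtain ⟨θ₀, hθ₀, -⟩ := dsv_exists_theta h1' hg (tgHeckeGens M (↑S : Set ℕ)) hGs
  set θ : tgHeckeAlg M (↑S : Set ℕ) →+* DslRes ℓ :=
    θ₀.comp ((tgHeckeAdjoinEquiv M (↑S : Set ℕ)) : tgHeckeAlg M (↑S : Set ℕ) →+* _) with hθ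
  have hθ' : ∀ t : tgHeckeAlg M (↑S : Set ℕ),
      θ t = dsvLam ℓ g (t : Module.End ℂ (CuspForm (Gamma1 M) 2)) := by
    intro t
    rw [hθ, RingHom.comp_apply, hθ₀]
    rfl
  have hθT : ∀ (p : ℕ) (hp : p.Prime) (hpM : ¬ p ∣ M) (hpS : p ∉ (↑S : Set ℕ)),
      θ (tgT hp hpM hpS) = abar p := by
    intro p hp hpM hpS
    rw [hθ', coe_tgT]
    exact (dsv_good_T h1' hg hp hpM (abar p) (heig' p hp hpM (hSnot p hp hpS).2)).2
  have hθD : ∀ d : (ZMod M)ˣ, θ (tgDia M (↑S : Set ℕ) d) = dsvRedC ℓ (χ (d : ZMod M)) := by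
    intro d
    rw [hθ', coe_tgDia]
    exact (dsv_good_diamond h1' hg d).2
  -- lifting to characteristic zero
  obtain ⟨𝒪, i1, i2, i3, i4, i5, i6, χO, ι, hp𝒪, hι⟩ := dsv_exists_dvr_of_hom hℓ θ
  -- the `ℓ`-adic representation
  obtain ⟨𝒪'', j1, j2, j3, j4, j5, j6, j7, j8, j9, -, ρ, hFrob, hunr⟩ :=
    h30 M hM5 hM49 ℓ S hℓS hMS 𝒪 hp𝒪 χO
  -- the embedding of the residue field
  letI : Algebra (ResidueField 𝒪) (DslRes ℓ) := ι.toAlgebra
  haveI : Module.Finite (ResidueField 𝒪) (ResidueField 𝒪'') := Module.Finite.of_finite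
  haveI : Algebra.IsAlgebraic (ResidueField 𝒪) (ResidueField 𝒪'') :=
    Algebra.IsAlgebraic.of_finite _ _
  let jA : ResidueField 𝒪'' →ₐ[ResidueField 𝒪] DslRes ℓ := IsAlgClosed.lift
  have hjA : ∀ a : 𝒪, jA (residue 𝒪'' (algebraMap 𝒪 𝒪'' a)) = ι (residue 𝒪 a) := by
    intro a
    rw [← ResidueField.algebraMap_residue]
    exact jA.commutes (residue 𝒪 a)
  -- matrix form of the reduction
  obtain ⟨ρbar, hfin, hone, htd⟩ := tgr_exists_GL2 ρ.residual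
  refine ⟨ResidueField 𝒪'', inferInstance, (jA : ResidueField 𝒪'' →+* DslRes ℓ), ρbar, hfin, ?_⟩
  intro p hp hpM hpℓ A hA
  have hpS := hnotS p hp hpM hpℓ
  refine ⟨fun σ hσ => hone σ ?_, fun σ hσ => ?_⟩
  · have h1 : ρ.ρ σ = 1 := hunr p hp hpM hpℓ A hA σ hσ
    change (ρ.ρ σ).baseChange (ResidueField 𝒪'') = 1
    rw [h1, LinearMap.baseChange_one]
  · obtain ⟨u, hu⟩ : ∃ u : (ZMod M)ˣ, (u : ZMod M) = (p : ZMod M) :=
      ⟨dshUnit M hp hpM, coe_dshUnit M hp hpM⟩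
    have hcp : LinearMap.charpoly (ρ.residual.ρ σ) =
        X ^ 2 - C (residue 𝒪'' (algebraMap 𝒪 𝒪'' (χO (tgT hp hpM hpS)))) * X +
          C ((p : ResidueField 𝒪'') *
            residue 𝒪'' (algebraMap 𝒪 𝒪'' (χO (tgDia M (↑S : Set ℕ) u)))) := by
      have hres : LinearMap.charpoly (ρ.residual.ρ σ) =
          (LinearMap.charpoly (ρ.ρ σ)).map (residue 𝒪'') :=
        LinearMap.charpoly_baseChange (ρ.ρ σ) (ResidueField 𝒪'')
      rw [hres, hFrob p hp hpM hpS u hu A hA σ hσ]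
      simp only [Polynomial.map_add, Polynomial.map_sub, Polynomial.map_mul, Polynomial.map_pow,
        Polynomial.map_X, Polynomial.map_C, map_natCast, map_mul, Polynomial.map_natCast]
    obtain ⟨htr, hdet⟩ := ter_trace_det_of_charpoly ρ.residual.finrank_eq _ _ _ hcp
    refine ⟨?_, ?_⟩
    · rw [(htd σ).1, htr]
      change jA _ = _
      rw [hjA, hι, hθT]
    · rw [(htd σ).2, hdet]
      change jA _ = _
      rw [map_mul, map_natCast, hjA, hι, hθD, hu, ← hx, dsvRedC_coe]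

/-- the Tate module packages with nebentypus for all admissible levels -/
def TgzPackageAll : Prop :=
  ∀ (M : ℕ) [NeZero M], 5 ≤ M → (4 ∣ M ∨ 9 ∣ M) → ∀ (p : ℕ) [Fact p.Prime], TgzPackage p M

theorem tgz_S30All_of_package (h : TgzPackageAll) : TgzS30All :=
  fun M _ hM5 hM49 p _ S hpS hMS =>
    tgz_S30_of_package p M S hpS hMS (h M hM5 hM49 p) (tgz_extension p M (↑S : Set ℕ))

/-- **(Γ₁-RES) from the Tate module packages** -/
theorem tgz_gamma1Res_of_package (h : TgzPackageAll) : DsvGamma1Res :=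
  tgz_gamma1Res (tgz_S30All_of_package h)

end

end Fermat.Agent.T1G
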